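/-
M59 / box [C] Mazur at `q = 2`, HESSE PORT: THE SEAM [GEO-52] IS CLOSED (helper28 + helper29).  Prefix `m59h2_`.

`m59h2_geoTwoFive : m59mz_GeoTwoFive_stmt` (`M59/Mazur/Seams.lean`): for every `M` prime to `q = 2` and every
place `A` of `ℚ̄` over `2`, main's COVER-FREE geometric cells of S43's block [F] at the exponent `5`:

* (Z3)+(Z4) `twf_CompCells A M hqM 5 ∅ twfh_k twfh_B`  — `m59h2_twfm_compCells` (clusters B-UDIV + C-MONO, helper28);
* (Z6) `twf_ResHecke_stmt A M hqM 5`                   — `m59h2_twf_resHecke` (cluster A-RES, helper28);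
* (Z8) `∃ s = ±1, twf_ToricW_stmt A M hqM 5 s`         — `m59h2_twfj_toricW_two_five` (cluster D-TORIC, helper29);
* `ℤ`-linearity of `δ` on `J[5] ∩ ker ν`               — `m59h2_twfq_delta_zsmul` (cluster A-RES, helper28).

All four go through the HESSE cover `hs_E L h3 (M q) = F_{lcm(9, 3 M q)}(L)` (rigid in every residue
characteristic `≠ 3`), in place of main's Legendre cover (which needs `q ≠ 2`).  More generally
`m59h2_geo` gives `m59mz_Geo M hqM m` for every prime `q ≠ 3`, `q ∤ M`, and every exponent `m ≠ 0` prime to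
`6` and to `q`.
-/
import Mathlib
import Fermat.Agent.M59.Mazur.Seams
import Fermat.Agent.M59.Hesse2.Mono.HesMonoMain
import Fermat.Agent.M59.Hesse2.Res.HesResHecke
import Fermat.Agent.M59.Hesse2.Toric.HesMainJ

set_option autoImplicit false
set_option linter.unusedSectionVars false
set_option linter.unusedVariables false
set_option linter.style.haveILetI false
set_option synthInstance.maxHeartbeats 400000
set_option maxHeartbeats 1000000

noncomputable section

namespace Fermat.Agent.M59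

open ModularCurve AlgebraicCurve IsLocalRing Fermat.Agent.JT3 Fermat.Agent.S35 Fermat.Agent.SS
  Fermat.Agent.S24 Fermat.Agent.S44 Fermat.Agent.TW

local notation "Qb" => AlgebraicClosure ℚ

/-- **[GEO] through the Hesse cover**: residue characteristic `q` prime to `3`, `q ∤ M`, any exponent
`m ≠ 0` prime to `6` and to `q`. -/
theorem m59h2_geo (M : ℕ) {q : ℕ} [NeZero M] [NeZero q] [NeZero (M * q)] [hq : Fact q.Prime]
    (hqM : ¬ q ∣ M) (hq3 : ¬ 3 ∣ q) {m : ℕ} (hm0 : m ≠ 0) (hm6 : Nat.Coprime m 6)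
    (hqm : ¬ q ∣ m) : m59mz_Geo M hqM m := by
  intro A hA
  refine ⟨⟨∅, _, _, m59h2_twfm_compCells A hA M hqM hq3 hm0 hm6⟩,
    m59h2_twf_resHecke A hA M hqM hq3 hm0 hm6,
    ⟨-1, Or.inr rfl, m59h2_twfj_toricW A hA M hqM hq3 hm0 hm6 hqm⟩, ?_⟩
  intro z hz hν n
  exact (m59h2_twfq_delta_zsmul A hA M hqM hq3 hm0 hm6 hz hν n).2

/-- **[GEO-52]**: the seam `m59mz_GeoTwoFive_stmt` of `M59/Mazur/Seams.lean` (`q = 2`, exponent `5`). -/
theorem m59h2_geoTwoFive : m59mz_GeoTwoFive_stmt := by
  intro M q _ _ _ _ hqM hq2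
  have hq3 : ¬ 3 ∣ q := by rw [hq2]; norm_num
  have hqm : ¬ q ∣ 5 := by rw [hq2]; norm_num
  exact m59h2_geo M hqM hq3 (by norm_num) (by decide) hqm

end Fermat.Agent.M59
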